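import Mathlib.Order.LiminfLimsup
import Mathlib.Topology.Order.LiminfLimsup
import Mathlib.Data.Set.Card
import Fermat.Agent.RationalPowers.LimitPoints

/-!
# The theorem of Flatto, Lagarias and Pollington

Dubickas's proof: the integers `a f n - b f (n + 1)` are not eventually periodic, so for each `m`
two positions carry the same `m` following terms and different terms, which spreads the fractional
parts over an interval of length nearly `1 / a`. The word lemma is that of Morse and Hedlund.
-/

set_option autoImplicit false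

noncomputable section

open Filter Topology Finset

namespace FA.FLP

theorem periodic_of_backward {β : Type*} (u : ℕ → β) {S : Set β} (hS : S.Finite) {N : ℕ}
    (hu : ∀ n, N ≤ n → u n ∈ S)
    (h : ∀ n n', N ≤ n → N ≤ n' → u (n + 1) = u (n' + 1) → u n = u n') :
    ∃ T, 0 < T ∧ ∀ n, N ≤ n → u (n + T) = u n := by
  classical
  have hback : ∀ j n n', N ≤ n → N ≤ n' → u (n + j) = u (n' + j) → u n = u n' := by
    intro j
    induction j with
    | zero => intro n n' _ _ he; simpa using he
    | succ j ih =>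
      intro n n' hn hn' he
      exact ih n n' hn hn' (h _ _ (le_add_right hn) (le_add_right hn') he)
  by_contra hall
  push Not at hall
  have hall' : ∀ T, ∃ n, 0 < T → N ≤ n ∧ u (n + T) ≠ u n := fun T => by
    rcases Nat.eq_zero_or_pos T with hT | hT
    · exact ⟨0, fun hT' => absurd hT' (by omega)⟩
    · obtain ⟨n, hn⟩ := hall T hT
      exact ⟨n, fun _ => hn⟩
  choose bad hbad using hall'
  set k := #hS.toFinset
  set K := N + (range (k + 1)).sup bad with hK
  obtain ⟨i, hi, j, hj, hij, he⟩ := exists_ne_map_eq_of_card_lt_of_maps_to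
    (s := range (k + 1)) (t := hS.toFinset) (f := fun i => u (K + i)) (by simp [k])
    (fun i _ => by simpa using hu _ (le_add_right (Nat.le_add_right N _)))
  wlog hlt : i < j generalizing i j
  · exact this j hj i hi hij.symm he.symm (by omega)
  rw [mem_range] at hj
  obtain ⟨hT1, hT2⟩ := hbad (j - i) (by omega)
  have hsup : bad (j - i) ≤ K :=
    le_trans (le_sup (f := bad) (mem_range.2 (by omega : j - i < k + 1))) (Nat.le_add_left _ N)
  refine hT2 (hback (K + i - bad (j - i)) _ _ (le_add_right hT1) hT1 ?_)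
  rw [show bad (j - i) + (K + i - bad (j - i)) = K + i by omega,
    show bad (j - i) + (j - i) + (K + i - bad (j - i)) = K + j by omega]
  exact he.symm

/-- **Morse–Hedlund**: low complexity forces eventual periodicity. -/
theorem periodic_of_complexity {β : Type*} (x : ℕ → β) {m : ℕ}
    (hfin : (Set.range fun i (j : Fin m) => x (i + j)).Finite)
    (hcard : (Set.range fun i (j : Fin m) => x (i + j)).ncard ≤ m) :
    ∃ T N, 0 < T ∧ ∀ n, N ≤ n → x (n + T) = x n := by
  classical
  set F : (l : ℕ) → Set (Fin l → β) := fun l => Set.range fun i (j : Fin l) => x (i + j) with hF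
  have hres : ∀ {l l' : ℕ} (h : l ≤ l'), F l = (fun v => v ∘ Fin.castLE h) '' F l' := fun h => by
    simp only [hF, ← Set.range_comp]
    rfl
  obtain ⟨l, hl, hle⟩ : ∃ l < m, (F (l + 1)).ncard ≤ (F l).ncard := by
    by_contra hall
    push Not at hall
    have key : ∀ l, l ≤ m → l + 1 ≤ (F l).ncard := by
      intro l
      induction l with
      | zero =>
        intro _
        have : (F 0).ncard ≠ 0 := by
          rw [Ne, Set.ncard_eq_zero (Set.toFinite _)]
          exact (Set.range_nonempty _).ne_empty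
        omega
      | succ l ih =>
        intro hl
        have := hall l (by omega)
        have := ih (by omega)
        omega
    have := key m le_rfl
    have : (F m).ncard ≤ m := hcard
    omega
  have hfin' : (F (l + 1)).Finite := (hres hl) ▸ hfin.image _
  have hinj : Set.InjOn (fun v : Fin (l + 1) → β => v ∘ Fin.castLE l.le_succ) (F (l + 1)) :=
    Set.injOn_of_ncard_image_eq (le_antisymm (Set.ncard_image_le hfin')
      (by rw [← hres l.le_succ]; exact hle)) hfin'
  have hfl : (F l).Finite := (hres l.le_succ) ▸ hfin'.image _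
  -- the window determines the next one
  set W : ℕ → Fin l → β := fun i j => x (i + j) with hW
  have hnext : ∀ i i', W i = W i' → W (i + 1) = W (i' + 1) ∧ x i = x i' := by
    intro i i' he
    have h1 := hinj (Set.mem_range_self i) (Set.mem_range_self i') (funext fun j => congrFun he j)
    refine ⟨funext fun j => ?_, by simpa using congrFun h1 0⟩
    have := congrFun h1 j.succ
    simpa [hW, add_assoc, add_comm 1] using this
  obtain ⟨i, -, i', -, hne, he⟩ := Set.infinite_univ.exists_ne_map_eq_of_mapsTo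
    (f := W) (fun i _ => Set.mem_range_self i) hfl
  wlog hlt : i < i' generalizing i i'
  · exact this i' i hne.symm he.symm (by omega)
  refine ⟨i' - i, i, by omega, fun n hn => ?_⟩
  obtain ⟨d, rfl⟩ := Nat.exists_eq_add_of_le hn
  have key : ∀ d, W (i + d) = W (i' + d) := fun d => by
    induction d with
    | zero => simpa using he
    | succ d ih => rw [← add_assoc, ← add_assoc]; exact (hnext _ _ ih).1
  rw [show i + d + (i' - i) = i' + d by omega]
  exact ((hnext _ _ (key d)).2).symm

/-- No interval shorter than `1 / a` contains almost all the fractional parts. -/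
theorem not_eventually_short {q : ℚ} (hq : 1 < q) (hden : q.den ≠ 1) {ξ : ℝ} (hξ : ξ ≠ 0)
    {s e : ℝ} (hlen : (q.num : ℝ) * (e - s) < 1) :
    ¬∀ᶠ n : ℕ in atTop, Int.fract (ξ * (q : ℝ) ^ n) ∈ Set.Icc s e := by
  intro hev
  obtain ⟨N, hN⟩ := eventually_atTop.1 hev
  set a : ℤ := q.num with ha
  set b : ℕ := q.den with hb
  have hab : (q : ℝ) * b = a := by exact_mod_cast q.mul_den_eq_num
  have hq' : (1 : ℝ) < q := by exact_mod_cast hq
  have hb0 : (0 : ℝ) < b := by exact_mod_cast q.den_pos
  have ha0 : (0 : ℝ) < a := by rw [← hab]; positivity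
  set f : ℕ → ℝ := fun n => Int.fract (ξ * (q : ℝ) ^ n) with hf
  set r : ℕ → ℤ := fun n => b * ⌊ξ * (q : ℝ) ^ (n + 1)⌋ - a * ⌊ξ * (q : ℝ) ^ n⌋ with hr
  have hrf : ∀ n, (r n : ℝ) = a * f n - b * f (n + 1) := fun n => by
    have h1 := Int.fract_add_floor (ξ * (q : ℝ) ^ n)
    have h2 := Int.fract_add_floor (ξ * (q : ℝ) ^ (n + 1))
    simp only [hr, hf]
    push_cast
    rw [pow_succ] at h2 ⊢
    linear_combination (b : ℝ) * h2 - (a : ℝ) * h1 + ξ * (q : ℝ) ^ n * hab
  have hf01 : ∀ n, 0 ≤ f n ∧ f n < 1 := fun n => ⟨Int.fract_nonneg _, Int.fract_lt_one _⟩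
  -- the differences grow geometrically
  have hgrow : ∀ n n' m, (∀ i < m, r (n + i) = r (n' + i)) →
      f (n + m) - f (n' + m) = (q : ℝ) ^ m * (f n - f n') := by
    intro n n' m
    induction m with
    | zero => intro _; simp
    | succ m ih =>
      intro he
      have h1 := ih fun i hi => he i (by omega)
      have h2 : (r (n + m) : ℝ) = r (n' + m) := by rw [he m m.lt_succ_self]
      rw [hrf, hrf] at h2
      refine mul_left_cancel₀ hb0.ne' ?_
      rw [← add_assoc, ← add_assoc, pow_succ']
      linear_combination -h2 + (a : ℝ) * h1 - (q : ℝ) ^ m * (f n - f n') * hab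
  -- `r` is not eventually periodic
  have hnper : ∀ T M, 0 < T → ¬∀ n, M ≤ n → r (n + T) = r n := by
    intro T M hT hper
    have hfp : ∀ n, M ≤ n → f (n + T) = f n := fun n hn => by
      by_contra hne
      obtain ⟨m, hm⟩ := pow_unbounded_of_one_lt (1 / |f (n + T) - f n|) hq'
      rw [div_lt_iff₀ (abs_pos.2 (sub_ne_zero.2 hne))] at hm
      have h1 := hgrow (n + T) n m fun i _ => by
        rw [add_right_comm]; exact hper _ (le_add_right hn)
      have h2 : |f (n + T + m) - f (n + m)| < 1 := abs_sub_lt_iff.2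
        ⟨by linarith [(hf01 (n + T + m)).2, (hf01 (n + m)).1],
          by linarith [(hf01 (n + T + m)).1, (hf01 (n + m)).2]⟩
      rw [h1, abs_mul, abs_of_pos (by positivity : (0 : ℝ) < (q : ℝ) ^ m)] at h2
      linarith
    have hmem : ∀ n, M ≤ n → f n ∈ f '' Set.Iio (M + T) := by
      intro n
      induction n using Nat.strong_induction_on with
      | _ n ih =>
        intro hn
        rcases lt_or_ge n (M + T) with h | h
        · exact ⟨n, h, rfl⟩
        · have h1 := hfp (n - T) (by omega)
          rw [Nat.sub_add_cancel (by omega)] at h1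
          exact h1 ▸ ih (n - T) (by omega) (by omega)
    refine RationalPowers.infinite_limitPoints hq hden hξ
      (((Set.finite_Iio (M + T)).image f).subset fun z hz => ?_)
    by_contra hzmem
    have hclosed : IsClosed (f '' Set.Iio (M + T)) := ((Set.finite_Iio _).image f).isClosed
    have h1 : ∃ᶠ n in atTop, f n ∈ (f '' Set.Iio (M + T))ᶜ :=
      hz.frequently (hclosed.isOpen_compl.mem_nhds hzmem)
    obtain ⟨n, hn1, hn2⟩ := (h1.and_eventually (eventually_ge_atTop M)).exists
    exact hn1 (hmem n hn2)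
  -- a long common block after differing terms
  set δ := 1 - (a : ℝ) * (e - s) with hδ
  obtain ⟨m, hm⟩ := pow_unbounded_of_one_lt ((b : ℝ) / δ) hq'
  rw [div_lt_iff₀ (by linarith)] at hm
  have hspecial : ∃ n n', N ≤ n ∧ N ≤ n' ∧ r n ≠ r n' ∧
      ∀ i < m, r (n + 1 + i) = r (n' + 1 + i) := by
    by_contra hno
    push Not at hno
    set u : ℕ → Fin (m + 1) → ℤ := fun n i => r (n + i) with hu
    have hrb : ∀ n, r n ∈ Set.Icc (-(b : ℤ)) a := fun n => by
      have h1 := hrf n
      obtain ⟨h2, h3⟩ := hf01 n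
      obtain ⟨h4, h5⟩ := hf01 (n + 1)
      have h6 : -(b : ℝ) ≤ r n ∧ (r n : ℝ) ≤ a := by constructor <;> nlinarith
      exact ⟨by exact_mod_cast h6.1, by exact_mod_cast h6.2⟩
    obtain ⟨T, hT, hper⟩ := periodic_of_backward u
      (Set.Finite.pi fun _ : Fin (m + 1) => Set.finite_Icc (-(b : ℤ)) a) (N := N)
      (fun n _ i _ => hrb _) fun n n' hn hn' he => by
        have hj : ∀ i < m, r (n + 1 + i) = r (n' + 1 + i) := fun i hi => by
          simpa [hu] using congrFun he ⟨i, by omega⟩
        funext i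
        obtain ⟨i, hi⟩ := i
        cases i with
        | zero =>
          by_contra hne
          obtain ⟨i', hi', hne'⟩ := hno n n' hn hn' (by simpa [hu] using hne)
          exact hne' (hj i' hi')
        | succ i =>
          simp only [hu]
          rw [show n + (i + 1) = n + 1 + i by omega, show n' + (i + 1) = n' + 1 + i by omega]
          exact hj i (by omega)
    exact hnper T N hT fun n hn => by simpa [hu] using congrFun (hper n hn) 0
  obtain ⟨n, n', hn, hn', hne, hblock⟩ := hspecial
  have h1 := hgrow (n + 1) (n' + 1) m hblock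
  set D0 := f n - f n' with hD0
  set D1 := f (n + 1) - f (n' + 1) with hD1
  have hw : ∀ i j, N ≤ i → N ≤ j → |f i - f j| ≤ e - s := fun i j hi hj =>
    abs_sub_le_iff.2 ⟨by linarith [(hN i hi).2, (hN j hj).1],
      by linarith [(hN i hi).1, (hN j hj).2]⟩
  have h2 : (q : ℝ) ^ m * |D1| < 1 := by
    rw [← abs_of_pos (by positivity : (0 : ℝ) < (q : ℝ) ^ m), ← abs_mul, ← h1]
    exact abs_sub_lt_iff.2 ⟨by linarith [(hf01 (n + 1 + m)).2, (hf01 (n' + 1 + m)).1],
      by linarith [(hf01 (n + 1 + m)).1, (hf01 (n' + 1 + m)).2]⟩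
  have h3 : (1 : ℝ) ≤ |(a : ℝ) * D0 - b * D1| := by
    have e1 : (a : ℝ) * D0 - b * D1 = ((r n - r n' : ℤ) : ℝ) := by
      push_cast
      rw [hrf, hrf]
      ring
    rw [e1]
    exact_mod_cast Int.one_le_abs (sub_ne_zero.2 hne)
  have h4 := h3.trans (abs_sub _ _)
  rw [abs_mul, abs_mul, abs_of_pos ha0, abs_of_pos hb0] at h4
  have h5 := mul_le_mul_of_nonneg_left (hw n n' hn hn') ha0.le
  have h6 : (b : ℝ) * ((q : ℝ) ^ m * |D1|) ≤ b * 1 := mul_le_mul_of_nonneg_left h2.le hb0.le
  have h7 : δ ≤ (b : ℝ) * |D1| := by linarith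
  nlinarith [mul_le_mul_of_nonneg_right h7 (by positivity : (0 : ℝ) ≤ (q : ℝ) ^ m)]

/-- **Flatto–Lagarias–Pollington.** -/
theorem oscillation_ge {q : ℚ} (hq : 1 < q) (hden : q.den ≠ 1) {ξ : ℝ} (hξ : ξ ≠ 0) :
    1 / (q.num : ℝ) ≤ limsup (fun n : ℕ => Int.fract (ξ * (q : ℝ) ^ n)) atTop -
      liminf (fun n : ℕ => Int.fract (ξ * (q : ℝ) ^ n)) atTop := by
  set f : ℕ → ℝ := fun n => Int.fract (ξ * (q : ℝ) ^ n) with hf
  have ha : (0 : ℝ) < (q.num : ℝ) := by
    exact_mod_cast Rat.num_pos.2 (lt_trans zero_lt_one hq)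
  by_contra hlt
  push Not at hlt
  set γ := (1 / (q.num : ℝ) - (limsup f atTop - liminf f atTop)) / 3 with hγ
  have hγ0 : 0 < γ := by rw [hγ]; linarith
  have hbdd : IsBoundedUnder (· ≤ ·) atTop f :=
    isBoundedUnder_of ⟨1, fun n => (Int.fract_lt_one _).le⟩
  have hbdd' : IsBoundedUnder (· ≥ ·) atTop f :=
    isBoundedUnder_of ⟨0, fun n => Int.fract_nonneg _⟩
  refine not_eventually_short hq hden hξ (s := liminf f atTop - γ) (e := limsup f atTop + γ) ?_ ?_
  · rw [← lt_div_iff₀' ha]
    linarith
  · filter_upwards [eventually_lt_of_limsup_lt (lt_add_of_pos_right _ hγ0) hbdd,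
      eventually_lt_of_lt_liminf (sub_lt_self _ hγ0) hbdd'] with n h1 h2
    exact ⟨h2.le, h1.le⟩

end FA.FLP

end
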